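import Fermat.Agent.Kummer.CaseI.Basic

/-!
# Kummer, Case I / ConjMod: complex conjugation is trivial modulo `ζ - 1`; `ζ - 1 ∤ 2`
-/

set_option autoImplicit false

noncomputable section

namespace Fermat.Agent.Kummer.CaseI

open NumberField

variable {p : ℕ} [Fact p.Prime] (K : Type) [Field K] [NumberField K]
  [IsCyclotomicExtension {p} ℚ K]

/-- `ζ ^ j ≡ 1 (mod ζ - 1)`. -/
theorem zeta_sub_one_dvd_pow_sub_one (j : ℕ) : (ζ p K - 1) ∣ ζ p K ^ j - 1 := by
  have h := sub_dvd_pow_sub_pow (ζ p K) 1 j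
  rwa [one_pow] at h

/-- `ζ - 1` does not divide `2` (for `p` odd). -/
theorem not_zeta_sub_one_dvd_two (hp3 : 3 ≤ p) : ¬ (ζ p K - 1) ∣ (2 : 𝓞 K) := by
  have : NeZero p := ⟨p_ne_zero p⟩
  intro h
  have h2 : (zeta_spec' p K).toInteger - 1 ∣ ((2 : ℤ) : 𝓞 K) := by
    rw [Int.cast_ofNat]
    exact h
  rw [IsCyclotomicExtension.Rat.zeta_sub_one_dvd_intCast_iff' p (zeta_spec' p K)] at h2
  have h3 : (p : ℤ) ≤ 2 := Int.le_of_dvd (by norm_num) h2
  omega

/-- Every element of `𝓞 K` is in the `ℤ`-subalgebra generated by `ζ`. -/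
private theorem conjMod_mem_adjoin (x : 𝓞 K) : x ∈ Algebra.adjoin ℤ {ζ p K} := by
  have : NeZero p := ⟨p_ne_zero p⟩
  have h : Algebra.adjoin ℤ {(zeta_spec' p K).toInteger} = ⊤ :=
    IsCyclotomicExtension.Rat.adjoin_singleton_eq_top (zeta_spec' p K)
  have hx : x ∈ Algebra.adjoin ℤ {(zeta_spec' p K).toInteger} := by
    rw [h]; exact Algebra.mem_top
  exact hx

/-- Complex conjugation acts trivially modulo `ζ - 1`. -/
theorem zeta_sub_one_dvd_conj_sub [NumberField.IsCMField K] (x : 𝓞 K) :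
    (ζ p K - 1) ∣ conj K x - x := by
  have hx := conjMod_mem_adjoin (p := p) K x
  induction hx using Algebra.adjoin_induction with
  | mem y hy =>
    rw [Set.mem_singleton_iff] at hy
    subst hy
    rw [conj_ζ]
    have e : ζ p K ^ (p - 1) - ζ p K = (ζ p K ^ (p - 1) - 1) - (ζ p K - 1) := by ring
    rw [e]
    exact dvd_sub (zeta_sub_one_dvd_pow_sub_one K (p - 1)) (dvd_refl _)
  | algebraMap r =>
    rw [eq_intCast, map_intCast, sub_self]
    exact dvd_zero _
  | add y z _ _ hy hz =>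
    have e : conj K (y + z) - (y + z) = (conj K y - y) + (conj K z - z) := by
      rw [map_add]; ring
    rw [e]
    exact dvd_add hy hz
  | mul y z _ _ hy hz =>
    have e : conj K (y * z) - y * z = conj K y * (conj K z - z) + z * (conj K y - y) := by
      rw [map_mul]; ring
    rw [e]
    exact dvd_add (Dvd.dvd.mul_left hz _) (Dvd.dvd.mul_left hy _)

end Fermat.Agent.Kummer.CaseI
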