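import Fermat.Agent.Kummer.CaseI.Torsion
import Fermat.Agent.Kummer.CaseI.ConjMod

/-!
# Kummer, Case I / Unit: Kummer's unit lemma `u = ζ ^ (2 k) * conj u`
-/

set_option autoImplicit false

noncomputable section

namespace Fermat.Agent.Kummer.CaseI

open NumberField

variable {p : ℕ} [Fact p.Prime] (K : Type) [Field K] [NumberField K]
  [IsCyclotomicExtension {p} ℚ K]

/-- A unit is a torsion unit times its complex conjugate. -/
private theorem unit_aux_exists_torsion [NumberField.IsCMField K] (u : (𝓞 K)ˣ) :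
    ∃ η : (𝓞 K)ˣ, η ∈ NumberField.Units.torsion K ∧
      (u : 𝓞 K) = (η : 𝓞 K) * conj K (u : 𝓞 K) := by
  refine ⟨(NumberField.IsCMField.unitsMulComplexConjInv K u : (𝓞 K)ˣ), SetLike.coe_mem _, ?_⟩
  have hc : ((NumberField.IsCMField.unitsComplexConj K u : (𝓞 K)ˣ) : 𝓞 K) = conj K (u : 𝓞 K) :=
    rfl
  rw [NumberField.IsCMField.unitsMulComplexConjInv_apply, ← hc, ← Units.val_mul,
    inv_mul_cancel_right]

/-- Every unit of `𝓞 K` is a power of `ζ` (with even exponent) times its complex conjugate. -/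
theorem unit_lemma [NumberField.IsCMField K] (hp3 : 3 ≤ p) (u : (𝓞 K)ˣ) :
    ∃ k : ℕ, (u : 𝓞 K) = ζ p K ^ (2 * k) * conj K (u : 𝓞 K) := by
  obtain ⟨η, hη, hu⟩ := unit_aux_exists_torsion K u
  obtain ⟨j, hj | hj⟩ := torsion_eq (p := p) K hp3 η hη
  · -- `η = ζ ^ j`
    have hodd : p % 2 = 1 := by
      rcases (Fact.out : p.Prime).eq_two_or_odd with h2 | h
      · omega
      · exact h
    refine ⟨j * ((p + 1) / 2), ?_⟩
    have h2k : 2 * (j * ((p + 1) / 2)) = p * j + j := by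
      have h : 2 * ((p + 1) / 2) = p + 1 := by omega
      calc 2 * (j * ((p + 1) / 2)) = j * (2 * ((p + 1) / 2)) := by ring
        _ = j * (p + 1) := by rw [h]
        _ = p * j + j := by ring
    rw [h2k, pow_add, pow_mul, ζ_pow_p, one_pow, one_mul, ← hj]
    exact hu
  · -- `η = -ζ ^ j`: impossible
    exfalso
    apply not_zeta_sub_one_dvd_two (p := p) K hp3
    rw [hj] at hu
    have h1 : (ζ p K - 1) ∣ ζ p K ^ j - 1 := zeta_sub_one_dvd_pow_sub_one K j
    have h2 : (ζ p K - 1) ∣ conj K (u : 𝓞 K) - (u : 𝓞 K) :=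
      zeta_sub_one_dvd_conj_sub (p := p) K (u : 𝓞 K)
    have h3 : (ζ p K - 1) ∣ 2 * (u : 𝓞 K) := by
      have e : 2 * (u : 𝓞 K) =
          -((ζ p K ^ j - 1) * conj K (u : 𝓞 K) + (conj K (u : 𝓞 K) - (u : 𝓞 K))) := by
        linear_combination hu
      rw [e]
      exact (dvd_neg).mpr (dvd_add (Dvd.dvd.mul_right h1 _) h2)
    have h4 : (ζ p K - 1) ∣ 2 * (u : 𝓞 K) * ((u⁻¹ : (𝓞 K)ˣ) : 𝓞 K) := Dvd.dvd.mul_right h3 _
    rwa [mul_assoc, ← Units.val_mul, mul_inv_cancel, Units.val_one, mul_one] at h4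

end Fermat.Agent.Kummer.CaseI
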