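import Fermat.Agent.Kummer.CaseI.PowCongr
import Fermat.Agent.Kummer.CaseI.Unit

/-!
# Kummer, Case I / Congr: the congruence `x + ζ y ≡ ζ ^ r (x + ζ⁻¹ y) (mod p)`
-/

set_option autoImplicit false

noncomputable section

namespace Fermat.Agent.Kummer.CaseI

open NumberField

variable {p : ℕ} [Fact p.Prime] (K : Type) [Field K] [NumberField K]
  [IsCyclotomicExtension {p} ℚ K]

/-- Powers of `ζ` only depend on the exponent modulo `p`. -/
private theorem congr_aux_ζ_pow_mod (n : ℕ) : ζ p K ^ n = ζ p K ^ (n % p) := by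
  conv_lhs => rw [← Nat.div_add_mod n p]
  rw [pow_add, pow_mul, ζ_pow_p, one_pow, one_mul]

theorem exists_dvd_of_eq_unit_mul_pow [NumberField.IsCMField K] (hp3 : 3 ≤ p) {x y : ℤ}
    {u : (𝓞 K)ˣ} {α : 𝓞 K} (h : (x : 𝓞 K) + ζ p K * (y : 𝓞 K) = (u : 𝓞 K) * α ^ p) :
    ∃ r < p, (p : 𝓞 K) ∣ (x : 𝓞 K) + (y : 𝓞 K) * ζ p K - (x : 𝓞 K) * ζ p K ^ r
      - (y : 𝓞 K) * ζ p K ^ ((r + p - 1) % p) := by
  have hp0 : 0 < p := by omega
  -- (1) apply conjugation to `h`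
  have hσ : (x : 𝓞 K) + ζ p K ^ (p - 1) * (y : 𝓞 K)
      = conj K (u : 𝓞 K) * (conj K α) ^ p := by
    have h1 := congrArg (conj K) h
    rw [map_add, map_mul, map_mul, map_pow, map_intCast, map_intCast, conj_ζ p K] at h1
    exact h1
  -- (2) `α ^ p` is congruent to an integer modulo `p`, and so is its conjugate
  obtain ⟨a, c, hc⟩ := exists_int_sub_pow_prime_dvd (p := p) K α
  have hσc : (conj K α) ^ p - (a : 𝓞 K) = (p : 𝓞 K) * conj K c := by
    have h1 := congrArg (conj K) hc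
    rw [map_sub, map_mul, map_pow, map_intCast, map_natCast] at h1
    exact h1
  -- (3) the unit lemma
  obtain ⟨k, hk⟩ := unit_lemma K hp3 u
  refine ⟨(2 * k) % p, Nat.mod_lt _ hp0, ?_⟩
  have hZ : ζ p K ^ ((2 * k) % p) = ζ p K ^ (2 * k) := (congr_aux_ζ_pow_mod K (2 * k)).symm
  have hW : ζ p K ^ (((2 * k) % p + p - 1) % p) = ζ p K ^ (2 * k) * ζ p K ^ (p - 1) := by
    rw [← congr_aux_ζ_pow_mod K ((2 * k) % p + p - 1)]
    have h1 : (2 * k) % p + p - 1 = (2 * k) % p + (p - 1) := by omega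
    rw [h1, pow_add, hZ]
  rw [hZ, hW]
  refine ⟨ζ p K ^ (2 * k) * conj K (u : 𝓞 K) * (c - conj K c), ?_⟩
  linear_combination h - ζ p K ^ (2 * k) * hσ + α ^ p * hk
    + ζ p K ^ (2 * k) * conj K (u : 𝓞 K) * (hc - hσc)

end Fermat.Agent.Kummer.CaseI
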