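import Fermat.Agent.Kummer.CaseI.Coeff

/-!
# Kummer, Case I / End: the four-term congruence forces `p ∣ x`, `p ∣ y` or `p ∣ x - y`
-/

set_option autoImplicit false

noncomputable section

namespace Fermat.Agent.Kummer.CaseI

open NumberField

variable {p : ℕ} [Fact p.Prime] (K : Type) [Field K] [NumberField K]
  [IsCyclotomicExtension {p} ℚ K]

/-- A sum over `range p` with a single nonzero coefficient. -/
private theorem end_aux_sum_ite (a : ℤ) {c : ℕ} (hc : c < p) :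
    ∑ i ∈ Finset.range p, (((if i = c then a else 0 : ℤ)) : 𝓞 K) * ζ p K ^ i
      = (a : 𝓞 K) * ζ p K ^ c := by
  rw [Finset.sum_eq_single c]
  · rw [if_pos rfl]
  · intro b _ hb
    rw [if_neg hb, Int.cast_zero, zero_mul]
  · intro h
    exact absurd (Finset.mem_range.mpr hc) h

theorem dvd_of_dvd_four_term (hp5 : 5 ≤ p) {x y : ℤ} {r : ℕ} (hr : r < p)
    (h : (p : 𝓞 K) ∣ (x : 𝓞 K) + (y : 𝓞 K) * ζ p K - (x : 𝓞 K) * ζ p K ^ r
      - (y : 𝓞 K) * ζ p K ^ ((r + p - 1) % p)) :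
    (p : ℤ) ∣ x ∨ (p : ℤ) ∣ y ∨ (p : ℤ) ∣ x - y := by
  obtain ⟨s, hs⟩ : ∃ s, s = (r + p - 1) % p := ⟨_, rfl⟩
  have hsp : s < p := by
    rw [hs]
    exact Nat.mod_lt _ (by omega)
  have hs' : (r = 0 ∧ s = p - 1) ∨ (1 ≤ r ∧ s = r - 1) := by
    rcases Nat.eq_zero_or_pos r with h0 | h0
    · left
      refine ⟨h0, ?_⟩
      rw [hs, h0, Nat.zero_add]
      exact Nat.mod_eq_of_lt (by omega)
    · right
      refine ⟨h0, ?_⟩
      have h1 : r + p - 1 = (r - 1) + p := by omega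
      rw [hs, h1, Nat.add_mod_right]
      exact Nat.mod_eq_of_lt (by omega)
  rw [← hs] at h
  obtain ⟨f, hf⟩ : ∃ f : ℕ → ℤ, f = fun i => (if i = 0 then x else 0) + (if i = 1 then y else 0)
      - (if i = r then x else 0) - (if i = s then y else 0) := ⟨_, rfl⟩
  have hsum : ∑ i ∈ Finset.range p, (f i : 𝓞 K) * ζ p K ^ i
      = (x : 𝓞 K) + (y : 𝓞 K) * ζ p K - (x : 𝓞 K) * ζ p K ^ r - (y : 𝓞 K) * ζ p K ^ s := by
    simp only [hf, Int.cast_sub, Int.cast_add, sub_mul, add_mul, Finset.sum_sub_distrib,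
      Finset.sum_add_distrib]
    rw [end_aux_sum_ite K x (by omega : 0 < p), end_aux_sum_ite K y (by omega : 1 < p),
      end_aux_sum_ite K x hr, end_aux_sum_ite K y hsp, pow_zero, mul_one, pow_one]
  have hzero : ∃ j < p, f j = 0 := by
    by_cases h2 : r = 2 ∨ s = 2
    · by_cases h3 : r = 3 ∨ s = 3
      · refine ⟨4, by omega, ?_⟩
        have h4r : ¬ (4 : ℕ) = r := by omega
        have h4s : ¬ (4 : ℕ) = s := by omega
        simp [hf, h4r, h4s]
      · refine ⟨3, by omega, ?_⟩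
        have h3r : ¬ (3 : ℕ) = r := by omega
        have h3s : ¬ (3 : ℕ) = s := by omega
        simp [hf, h3r, h3s]
    · refine ⟨2, by omega, ?_⟩
      have h2r : ¬ (2 : ℕ) = r := by omega
      have h2s : ¬ (2 : ℕ) = s := by omega
      simp [hf, h2r, h2s]
  have hdiv : ∀ i < p, (p : ℤ) ∣ f i :=
    dvd_coeff_of_dvd_sum K f hzero (p : ℤ) (by rw [hsum, Int.cast_natCast]; exact h)
  rcases hs' with ⟨hr0, hsv⟩ | ⟨hr1, hsv⟩
  · -- `r = 0`, `s = p - 1`
    right; left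
    have h1 := hdiv 1 (by omega)
    have h1r : ¬ (1 : ℕ) = r := by omega
    have h1s : ¬ (1 : ℕ) = s := by omega
    simpa [hf, h1r, h1s] using h1
  · rcases Nat.eq_or_lt_of_le hr1 with hr1' | hr2
    · -- `r = 1`, `s = 0`
      right; right
      have h0 := hdiv 0 (by omega)
      have h0r : ¬ (0 : ℕ) = r := by omega
      have h0s : (0 : ℕ) = s := by omega
      simpa [hf, h0r, ← h0s] using h0
    · -- `r ≥ 2`, `s = r - 1 ≥ 1`
      left
      have h0 := hdiv 0 (by omega)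
      have h0r : ¬ (0 : ℕ) = r := by omega
      have h0s : ¬ (0 : ℕ) = s := by omega
      simpa [hf, h0r, h0s] using h0

end Fermat.Agent.Kummer.CaseI
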