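import Fermat.Agent.Kummer.CaseI.Ideals
import Fermat.Agent.Kummer.CaseI.Congr
import Fermat.Agent.Kummer.CaseI.End

/-!
# Kummer, Case I / Core: assembly (owner: helper95)
-/

set_option autoImplicit false

noncomputable section

namespace Fermat.Agent.Kummer.CaseI

open NumberField

variable {p : ℕ} [Fact p.Prime] (K : Type) [Field K] [NumberField K]
  [IsCyclotomicExtension {p} ℚ K]

/-- Case I with the additional normalisation `x ≢ y (mod p)`. -/
theorem core (hp5 : 5 ≤ p) (hpid : IsPrincipalIdealRing (𝓞 K)) {x y z : ℤ}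
    (hxy : IsCoprime x y) (h : x ^ p + y ^ p + z ^ p = 0) (hx : ¬ (p : ℤ) ∣ x)
    (hy : ¬ (p : ℤ) ∣ y) (hz : ¬ (p : ℤ) ∣ z) (hxy' : ¬ (p : ℤ) ∣ x - y) : False := by
  haveI : NumberField.IsCMField K :=
    IsCyclotomicExtension.Rat.isCMField K (S := {p}) ⟨p, rfl, by omega⟩
  obtain ⟨u, α, hα⟩ := exists_unit_mul_pow K (by omega) hpid hxy h hz
  obtain ⟨r, hr, hdvd⟩ := exists_dvd_of_eq_unit_mul_pow K (by omega) hα
  rcases dvd_of_dvd_four_term K hp5 hr hdvd with h1 | h1 | h1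
  · exact hx h1
  · exact hy h1
  · exact hxy' h1

/-- Case I. -/
theorem caseI_aux (hp5 : 5 ≤ p) (hpid : IsPrincipalIdealRing (𝓞 K)) {x y z : ℤ}
    (hxy : IsCoprime x y) (h : x ^ p + y ^ p + z ^ p = 0) (hp : ¬ (p : ℤ) ∣ x * y * z) :
    False := by
  have hx : ¬ (p : ℤ) ∣ x := fun hd => hp ((hd.mul_right y).mul_right z)
  have hy : ¬ (p : ℤ) ∣ y := fun hd => hp ((hd.mul_left x).mul_right z)
  have hz : ¬ (p : ℤ) ∣ z := fun hd => hp (hd.mul_left (x * y))
  by_cases h1 : (p : ℤ) ∣ x - y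
  · have h2 : ¬ (p : ℤ) ∣ x - z := fun h2 => false_of_dvd_sub_of_dvd_sub hp5 h hx h1 h2
    have h' : x ^ p + z ^ p + y ^ p = 0 := by rw [← h]; ring
    exact core K hp5 hpid (isCoprime_of_eq hxy h) h' hx hz hy h2
  · exact core K hp5 hpid hxy h hx hy hz h1

end Fermat.Agent.Kummer.CaseI
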