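import Fermat.Agent.Kummer.Defs

/-!
# Kummer, Case I: common definitions for component I (owner: helper20).

`ζ p K : 𝓞 K` is the primitive `p`-th root of unity `(zeta_spec p ℚ K).toInteger`,
`conj K : 𝓞 K ≃+* 𝓞 K` is complex conjugation (for a CM field `K`).
All lemmas of this file are proved; the statements are frozen (other files depend on them).
-/

set_option autoImplicit false

noncomputable section

namespace Fermat.Agent.Kummer.CaseI

open NumberField

section
variable (p : ℕ) [Fact p.Prime] (K : Type) [Field K] [NumberField K]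
  [IsCyclotomicExtension {p} ℚ K]

/-- `p ≠ 0` as an instance-free fact. -/
theorem p_ne_zero : p ≠ 0 := (Fact.out : p.Prime).ne_zero

/-- The primitive `p`-th root of unity of `K`. -/
theorem zeta_spec' : IsPrimitiveRoot (IsCyclotomicExtension.zeta p ℚ K) p :=
  haveI : NeZero p := ⟨p_ne_zero p⟩
  IsCyclotomicExtension.zeta_spec p ℚ K

/-- The primitive `p`-th root of unity, as an element of `𝓞 K`. -/
def ζ : 𝓞 K :=
  haveI : NeZero p := ⟨p_ne_zero p⟩
  (zeta_spec' p K).toInteger

theorem ζ_spec : IsPrimitiveRoot (ζ p K) p :=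
  haveI : NeZero p := ⟨p_ne_zero p⟩
  (zeta_spec' p K).toInteger_isPrimitiveRoot

theorem ζ_pow_p : ζ p K ^ p = 1 := (ζ_spec p K).pow_eq_one

theorem coe_ζ : ((ζ p K : 𝓞 K) : K) = IsCyclotomicExtension.zeta p ℚ K := rfl

end

section
variable (K : Type) [Field K] [NumberField K] [NumberField.IsCMField K]

/-- Complex conjugation on `𝓞 K`, as a ring automorphism. -/
def conj : 𝓞 K ≃+* 𝓞 K :=
  RingOfIntegers.mapRingEquiv (NumberField.IsCMField.complexConj K).toRingEquiv

theorem coe_conj (x : 𝓞 K) : ((conj K x : 𝓞 K) : K) = NumberField.IsCMField.complexConj K x := rfl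

theorem conj_conj (x : 𝓞 K) : conj K (conj K x) = x := by
  apply RingOfIntegers.ext
  rw [coe_conj, coe_conj, NumberField.IsCMField.complexConj_apply_apply]

end

section
variable (p : ℕ) [Fact p.Prime] (K : Type) [Field K] [NumberField K]
  [IsCyclotomicExtension {p} ℚ K] [NumberField.IsCMField K]

/-- Complex conjugation inverts `ζ`. -/
theorem conj_ζ : conj K (ζ p K) = ζ p K ^ (p - 1) := by
  have hp : p ≠ 0 := p_ne_zero p
  have hpow : ζ p K ^ p = 1 := ζ_pow_p p K
  obtain ⟨u, hu⟩ : IsUnit (ζ p K) := IsUnit.of_pow_eq_one hpow hp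
  have hut : u ∈ NumberField.Units.torsion K := by
    rw [NumberField.Units.torsion, CommGroup.mem_torsion, isOfFinOrder_iff_pow_eq_one]
    refine ⟨p, Nat.pos_of_ne_zero hp, ?_⟩
    apply Units.ext
    rw [Units.val_pow_eq_pow_val, hu, hpow, Units.val_one]
  have h1 : NumberField.IsCMField.complexConj K ((ζ p K : 𝓞 K) : K) = ((ζ p K : 𝓞 K) : K)⁻¹ := by
    have := NumberField.IsCMField.complexConj_torsion (K := K) ⟨u, hut⟩
    simpa only [hu] using this
  have h2 : ((ζ p K : 𝓞 K) : K) ^ (p - 1) * ((ζ p K : 𝓞 K) : K) = 1 := by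
    rw [← pow_succ, Nat.sub_add_cancel (Nat.one_le_iff_ne_zero.mpr hp)]
    have := congrArg (fun x : 𝓞 K => (x : K)) hpow
    simpa using this
  apply RingOfIntegers.ext
  have h3 : ((ζ p K ^ (p - 1) : 𝓞 K) : K) = ((ζ p K : 𝓞 K) : K) ^ (p - 1) :=
    map_pow (algebraMap (𝓞 K) K) (ζ p K) (p - 1)
  rw [coe_conj, h1, h3]
  exact (eq_inv_of_mul_eq_one_left h2).symm

end

end Fermat.Agent.Kummer.CaseI
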