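import Fermat.Agent.Kummer.CaseI.Basic

/-!
# Kummer, Case I / Coeff: divisibility of the coefficients of `∑ f i * ζ ^ i`
-/

set_option autoImplicit false

noncomputable section

namespace Fermat.Agent.Kummer.CaseI

open NumberField

variable {p : ℕ} [Fact p.Prime] (K : Type) [Field K] [NumberField K]
  [IsCyclotomicExtension {p} ℚ K]

/-- Comparing coordinates in the integral power basis `1, ζ, …, ζ ^ (p - 2)`. -/
private theorem coeff_aux (g : ℕ → ℤ) (m : ℤ) (w : 𝓞 K)
    (h : (m : 𝓞 K) * w = ∑ i ∈ Finset.range (p - 1), (g i : 𝓞 K) * ζ p K ^ i) :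
    ∀ i < p - 1, m ∣ g i := by
  have : NeZero p := ⟨p_ne_zero p⟩
  have hgen : (zeta_spec' p K).integralPowerBasis.gen = ζ p K :=
    (zeta_spec' p K).integralPowerBasis_gen
  have hdim : (zeta_spec' p K).integralPowerBasis.dim = p - 1 := by
    rw [(zeta_spec' p K).integralPowerBasis_dim, Nat.totient_prime Fact.out]
  generalize (zeta_spec' p K).integralPowerBasis = B at hgen hdim
  intro i hi
  have h1 : ∑ i ∈ Finset.range (p - 1), (g i : 𝓞 K) * ζ p K ^ i
      = ∑ j : Fin B.dim, g j • B.basis j := by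
    rw [← hdim, ← Fin.sum_univ_eq_sum_range (fun i => (g i : 𝓞 K) * ζ p K ^ i)]
    refine Finset.sum_congr rfl fun j _ => ?_
    rw [PowerBasis.coe_basis, hgen, zsmul_eq_mul]
  have h2 := congrArg (fun x => B.basis.repr x ⟨i, hdim ▸ hi⟩) (h.trans h1)
  beta_reduce at h2
  rw [← zsmul_eq_mul, map_smul, Finsupp.smul_apply, Module.Basis.repr_sum_self, smul_eq_mul] at h2
  exact ⟨_, h2.symm⟩

/-- If `m ∣ ∑_{i < p} f i * ζ ^ i` in `𝓞 K` and some coefficient `f j` (`j < p`) vanishes, then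
`m` divides every coefficient. -/
theorem dvd_coeff_of_dvd_sum (f : ℕ → ℤ) (hf : ∃ j < p, f j = 0) (m : ℤ)
    (h : (m : 𝓞 K) ∣ ∑ i ∈ Finset.range p, (f i : 𝓞 K) * ζ p K ^ i) : ∀ i < p, m ∣ f i := by
  have hp : p.Prime := Fact.out
  have hp1 : p - 1 + 1 = p := Nat.sub_add_cancel hp.one_le
  have hgeom : ∑ i ∈ Finset.range (p - 1 + 1), ζ p K ^ i = 0 := by
    rw [hp1]
    exact (ζ_spec p K).geom_sum_eq_zero hp.one_lt
  rw [Finset.sum_range_succ] at hgeom
  have hζ : ζ p K ^ (p - 1) = -∑ i ∈ Finset.range (p - 1), ζ p K ^ i :=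
    eq_neg_of_add_eq_zero_right hgeom
  have hsum : ∑ i ∈ Finset.range p, (f i : 𝓞 K) * ζ p K ^ i
      = ∑ i ∈ Finset.range (p - 1), ((f i - f (p - 1) : ℤ) : 𝓞 K) * ζ p K ^ i := by
    have hr : Finset.range p = Finset.range (p - 1 + 1) := by rw [hp1]
    rw [hr]
    rw [Finset.sum_range_succ, hζ, mul_neg, Finset.mul_sum, ← sub_eq_add_neg,
      ← Finset.sum_sub_distrib]
    refine Finset.sum_congr rfl fun i _ => ?_
    push_cast
    ring
  obtain ⟨w, hw⟩ := h
  have key : ∀ i < p - 1, m ∣ f i - f (p - 1) :=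
    coeff_aux K (fun i => f i - f (p - 1)) m w (hw.symm.trans hsum)
  obtain ⟨j, hj, hj0⟩ := hf
  have hlast : m ∣ f (p - 1) := by
    rcases Nat.lt_or_ge j (p - 1) with hj' | hj'
    · have := key j hj'
      rw [hj0, zero_sub] at this
      exact (dvd_neg.mp this)
    · have : j = p - 1 := by omega
      rw [← this, hj0]
      exact dvd_zero m
  intro i hi
  rcases Nat.lt_or_ge i (p - 1) with hi' | hi'
  · have := dvd_add (key i hi') hlast
    rwa [sub_add_cancel] at this
  · have : i = p - 1 := by omega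
    rw [this]
    exact hlast

end Fermat.Agent.Kummer.CaseI
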