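import Fermat.Agent.Kummer.CaseI.Basic

/-!
# Kummer, Case I / Coprime: the factors `x + ζ ^ i * y` are pairwise coprime
-/

set_option autoImplicit false

noncomputable section

namespace Fermat.Agent.Kummer.CaseI

open NumberField

variable {p : ℕ} [Fact p.Prime] (K : Type) [Field K] [NumberField K]
  [IsCyclotomicExtension {p} ℚ K]

/-- For coprime integers `x, y` with `p ∤ x + y`, the elements `x + ζ ^ i * y` (`i < p`) of `𝓞 K`
are pairwise coprime. -/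
theorem isCoprime_add_zeta_pow_mul {x y : ℤ} (hxy : IsCoprime x y) (hxyp : ¬ (p : ℤ) ∣ x + y)
    {i j : ℕ} (hi : i < p) (hj : j < p) (hij : i ≠ j) :
    IsCoprime ((x : 𝓞 K) + ζ p K ^ i * (y : 𝓞 K)) ((x : 𝓞 K) + ζ p K ^ j * (y : 𝓞 K)) := by
  have : NeZero p := ⟨p_ne_zero p⟩
  have hp : p.Prime := Fact.out
  have hζ : IsPrimitiveRoot (ζ p K) p := ζ_spec p K
  generalize hz : ζ p K = z at hζ ⊢
  generalize hAdef : (x : 𝓞 K) + z ^ i * (y : 𝓞 K) = A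
  generalize hBdef : (x : 𝓞 K) + z ^ j * (y : 𝓞 K) = B
  -- reduce to `1 ∈ span {A, B}`
  suffices h1 : (1 : 𝓞 K) ∈ Ideal.span {A, B} by
    obtain ⟨u, v, h⟩ := Ideal.mem_span_pair.mp h1
    exact ⟨u, v, h⟩
  have hA : A ∈ Ideal.span {A, B} := Ideal.subset_span (by simp)
  have hB : B ∈ Ideal.span {A, B} := Ideal.subset_span (by simp)
  generalize Ideal.span {A, B} = I at hA hB ⊢
  -- Step 1: `δ = z ^ i - z ^ j ∈ I`
  have hδy : (z ^ i - z ^ j) * (y : 𝓞 K) ∈ I := by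
    have h : (z ^ i - z ^ j) * (y : 𝓞 K) = A - B := by
      rw [← hAdef, ← hBdef]; ring
    rw [h]; exact I.sub_mem hA hB
  have hδx : (z ^ i - z ^ j) * (x : 𝓞 K) ∈ I := by
    have h : (z ^ i - z ^ j) * (x : 𝓞 K) = z ^ i * B - z ^ j * A := by
      rw [← hAdef, ← hBdef]; ring
    rw [h]; exact I.sub_mem (I.mul_mem_left _ hB) (I.mul_mem_left _ hA)
  obtain ⟨a, b, hab⟩ := hxy
  have hab' : (a : 𝓞 K) * (x : 𝓞 K) + (b : 𝓞 K) * (y : 𝓞 K) = 1 := by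
    exact_mod_cast congrArg (Int.cast : ℤ → 𝓞 K) hab
  have hδ : z ^ i - z ^ j ∈ I := by
    have h : z ^ i - z ^ j =
        (a : 𝓞 K) * ((z ^ i - z ^ j) * (x : 𝓞 K)) + (b : 𝓞 K) * ((z ^ i - z ^ j) * (y : 𝓞 K)) := by
      linear_combination (-(z ^ i - z ^ j)) * hab'
    rw [h]; exact I.add_mem (I.mul_mem_left _ hδx) (I.mul_mem_left _ hδy)
  -- Step 2: `λ = z - 1 ∈ I`
  have hmem : ∀ k : ℕ, z ^ k ∈ Polynomial.nthRootsFinset p (1 : 𝓞 K) := fun k => by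
    rw [Polynomial.mem_nthRootsFinset hp.pos, ← pow_mul, mul_comm, pow_mul, hζ.pow_eq_one, one_pow]
  have hne : z ^ i ≠ z ^ j := fun h => hij (hζ.pow_inj hi hj h)
  have hassoc : Associated (z - 1) (z ^ i - z ^ j) :=
    hζ.nthRootsFinset_pairwise_associated_sub_one_sub_of_prime hp (hmem i) (hmem j) hne
  have hlam : z - 1 ∈ I := by
    obtain ⟨u, hu⟩ := hassoc.symm
    rw [← hu]; exact I.mul_mem_right _ hδ
  -- Step 3: `p ∈ I` and `x + y ∈ I`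
  have hpI : ((p : ℤ) : 𝓞 K) ∈ I := by
    have hdvd : z - 1 ∣ (p : 𝓞 K) := by
      rw [← hz]
      exact (zeta_spec' p K).toInteger_sub_one_dvd_prime'
    obtain ⟨c, hc⟩ := hdvd
    have h : ((p : ℤ) : 𝓞 K) = (z - 1) * c := by rw [← hc]; simp
    rw [h]; exact I.mul_mem_right _ hlam
  have hxyI : ((x + y : ℤ) : 𝓞 K) ∈ I := by
    obtain ⟨c, hc⟩ := sub_one_dvd_pow_sub_one z i
    have h : ((x + y : ℤ) : 𝓞 K) = A - (y : 𝓞 K) * c * (z - 1) := by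
      rw [← hAdef]; push_cast; linear_combination (-(y : 𝓞 K)) * hc
    rw [h]; exact I.sub_mem hA (I.mul_mem_left _ hlam)
  -- Step 4: conclude
  have hcop : IsCoprime (p : ℤ) (x + y) :=
    (Nat.prime_iff_prime_int.mp hp).coprime_iff_not_dvd.mpr hxyp
  obtain ⟨c, d, hcd⟩ := hcop
  have h : (1 : 𝓞 K) = (c : 𝓞 K) * ((p : ℤ) : 𝓞 K) + (d : 𝓞 K) * ((x + y : ℤ) : 𝓞 K) := by
    exact_mod_cast (congrArg (Int.cast : ℤ → 𝓞 K) hcd).symm
  rw [h]; exact I.add_mem (I.mul_mem_left _ hpI) (I.mul_mem_left _ hxyI)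

end Fermat.Agent.Kummer.CaseI
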