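import Fermat.Agent.Kummer.CaseI.Basic

/-!
# Kummer, Case I / Factor: `∏_{i < p} (x + ζ ^ i * y) = x ^ p + y ^ p`
-/

set_option autoImplicit false

noncomputable section

namespace Fermat.Agent.Kummer.CaseI

open NumberField

variable {p : ℕ} [Fact p.Prime] (K : Type) [Field K] [NumberField K]
  [IsCyclotomicExtension {p} ℚ K]

theorem prod_add_zeta_pow_mul (hp3 : 3 ≤ p) (x y : 𝓞 K) :
    ∏ i ∈ Finset.range p, (x + ζ p K ^ i * y) = x ^ p + y ^ p := by
  classical
  have hp : p.Prime := Fact.out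
  have hpos : 0 < p := hp.pos
  have hodd : Odd p := hp.odd_of_ne_two (by omega)
  have hζ : IsPrimitiveRoot (ζ p K) p := ζ_spec p K
  have hinj : Set.InjOn (fun i : ℕ => ζ p K ^ i) (Finset.range p : Set ℕ) := by
    intro i hi j hj hij
    exact hζ.pow_inj (Finset.mem_range.mp hi) (Finset.mem_range.mp hj) hij
  have himage : (Finset.range p).image (fun i : ℕ => ζ p K ^ i)
      = Polynomial.nthRootsFinset p (1 : 𝓞 K) := by
    apply Finset.eq_of_subset_of_card_le
    · intro μ hμ
      obtain ⟨i, -, rfl⟩ := Finset.mem_image.mp hμ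
      rw [Polynomial.mem_nthRootsFinset hpos]
      rw [← pow_mul, mul_comm, pow_mul, hζ.pow_eq_one, one_pow]
    · rw [hζ.card_nthRootsFinset, Finset.card_image_of_injOn hinj, Finset.card_range]
  rw [hζ.pow_add_pow_eq_prod_add_mul x y hodd, ← himage, Finset.prod_image hinj]

end Fermat.Agent.Kummer.CaseI
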