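import Fermat.Agent.Kummer.CaseI.Basic

/-!
# Kummer, Case I / Wlog: elementary facts on integer solutions of `x ^ p + y ^ p + z ^ p = 0`
-/

set_option autoImplicit false

noncomputable section

namespace Fermat.Agent.Kummer.CaseI

open NumberField

/-- Fermat's little theorem applied to the equation: `p ∣ x + y + z`. -/
private theorem wlog_aux_dvd_sum {p : ℕ} [Fact p.Prime] {x y z : ℤ}
    (h : x ^ p + y ^ p + z ^ p = 0) : (p : ℤ) ∣ x + y + z := by
  rw [← ZMod.intCast_zmod_eq_zero_iff_dvd]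
  have h' := congrArg (Int.cast : ℤ → ZMod p) h
  simp only [Int.cast_add, Int.cast_pow, ZMod.pow_card, Int.cast_zero] at h'
  simpa only [Int.cast_add] using h'

/-- If `x, y` are coprime then so are `x, z`. -/
theorem isCoprime_of_eq {p : ℕ} {x y z : ℤ} (hxy : IsCoprime x y)
    (h : x ^ p + y ^ p + z ^ p = 0) : IsCoprime x z := by
  rcases Nat.eq_zero_or_pos p with hp | hp
  · subst hp
    norm_num at h
  · obtain ⟨n, rfl⟩ : ∃ n, p = n + 1 := ⟨p - 1, by omega⟩
    obtain ⟨a, b, hab⟩ := hxy.pow_right (n := n + 1)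
    have hz : IsCoprime x (z ^ (n + 1)) := by
      refine ⟨a - b * x ^ n, -b, ?_⟩
      linear_combination hab - b * h
    exact (IsCoprime.pow_right_iff hp).mp hz

/-- If `p ∤ z` then `p ∤ x + y` (Fermat's little theorem). -/
theorem not_dvd_add_of_eq {p : ℕ} [Fact p.Prime] {x y z : ℤ} (h : x ^ p + y ^ p + z ^ p = 0)
    (hz : ¬ (p : ℤ) ∣ z) : ¬ (p : ℤ) ∣ x + y := by
  intro hxy
  apply hz
  have hs := wlog_aux_dvd_sum h
  have := dvd_sub hs hxy
  simpa using this

/-- `x ≡ y ≡ z (mod p)` is impossible when `p ≥ 5` and `p ∤ x`. -/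
theorem false_of_dvd_sub_of_dvd_sub {p : ℕ} [Fact p.Prime] (hp5 : 5 ≤ p) {x y z : ℤ}
    (h : x ^ p + y ^ p + z ^ p = 0) (hx : ¬ (p : ℤ) ∣ x) (h1 : (p : ℤ) ∣ x - y)
    (h2 : (p : ℤ) ∣ x - z) : False := by
  have hs := wlog_aux_dvd_sum h
  have h3 : (p : ℤ) ∣ 3 * x := by
    have := dvd_add (dvd_add hs h1) h2
    have e : x + y + z + (x - y) + (x - z) = 3 * x := by ring
    rwa [e] at this
  have hpp : Prime (p : ℤ) := Nat.prime_iff_prime_int.mp (Fact.out : p.Prime)
  rcases hpp.dvd_or_dvd h3 with h3 | h3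
  · have hle : (p : ℤ) ≤ 3 := Int.le_of_dvd (by norm_num) h3
    have h5 : (5 : ℤ) ≤ (p : ℤ) := by exact_mod_cast hp5
    omega
  · exact hx h3

end Fermat.Agent.Kummer.CaseI
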