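import Fermat.Agent.Kummer.CaseI.Factor
import Fermat.Agent.Kummer.CaseI.Coprime
import Fermat.Agent.Kummer.CaseI.Wlog

/-!
# Kummer, Case I / Ideals: `x + ζ y` is a unit times a `p`-th power
-/

set_option autoImplicit false

noncomputable section

namespace Fermat.Agent.Kummer.CaseI

open NumberField

variable {p : ℕ} [Fact p.Prime] (K : Type) [Field K] [NumberField K]
  [IsCyclotomicExtension {p} ℚ K]

theorem exists_unit_mul_pow (hp3 : 3 ≤ p) (hpid : IsPrincipalIdealRing (𝓞 K)) {x y z : ℤ}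
    (hxy : IsCoprime x y) (h : x ^ p + y ^ p + z ^ p = 0) (hz : ¬ (p : ℤ) ∣ z) :
    ∃ (u : (𝓞 K)ˣ) (α : 𝓞 K), (x : 𝓞 K) + ζ p K * (y : 𝓞 K) = (u : 𝓞 K) * α ^ p := by
  classical
  have := hpid
  have hpprime : p.Prime := Fact.out
  have hodd : Odd p := hpprime.odd_of_ne_two (by omega)
  have hxyp : ¬ (p : ℤ) ∣ x + y := not_dvd_add_of_eq h hz
  have h1mem : 1 ∈ Finset.range p := Finset.mem_range.mpr (by omega)
  -- the product formula, cast to `𝓞 K`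
  have hcast : ((x : 𝓞 K)) ^ p + ((y : 𝓞 K)) ^ p = (-(z : 𝓞 K)) ^ p := by
    rw [hodd.neg_pow]
    have hz' : x ^ p + y ^ p = -z ^ p := by linarith
    exact_mod_cast congrArg (fun n : ℤ => (n : 𝓞 K)) hz'
  have hprod : ((x : 𝓞 K) + ζ p K ^ 1 * (y : 𝓞 K)) *
      ∏ i ∈ (Finset.range p).erase 1, ((x : 𝓞 K) + ζ p K ^ i * (y : 𝓞 K)) =
      (-(z : 𝓞 K)) ^ p := by
    rw [Finset.mul_prod_erase (Finset.range p)
      (fun i => (x : 𝓞 K) + ζ p K ^ i * (y : 𝓞 K)) h1mem,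
      prod_add_zeta_pow_mul K hp3, hcast]
  have hcop : IsCoprime ((x : 𝓞 K) + ζ p K ^ 1 * (y : 𝓞 K))
      (∏ i ∈ (Finset.range p).erase 1, ((x : 𝓞 K) + ζ p K ^ i * (y : 𝓞 K))) := by
    refine IsCoprime.prod_right fun i hi => ?_
    rw [Finset.mem_erase, Finset.mem_range] at hi
    exact isCoprime_add_zeta_pow_mul K hxy hxyp (i := 1) (j := i) (by omega) hi.2
      (fun h1 => hi.1 h1.symm)
  obtain ⟨d, u, hu⟩ := exists_associated_pow_of_mul_eq_pow' hcop hprod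
  refine ⟨u, d, ?_⟩
  rw [pow_one] at hu
  rw [← hu, mul_comm]

end Fermat.Agent.Kummer.CaseI
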