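import Fermat.Agent.Kummer.CaseI.Basic

/-!
# Kummer, Case I / PowCongr: `α ^ p` is congruent to a rational integer modulo `p`
-/

set_option autoImplicit false

noncomputable section

namespace Fermat.Agent.Kummer.CaseI

open NumberField

variable {p : ℕ} [Fact p.Prime] (K : Type) [Field K] [NumberField K]
  [IsCyclotomicExtension {p} ℚ K]

/-- The set of `α` with `α ^ p` congruent to a rational integer mod `p` is closed under
addition (in any commutative ring). -/
private theorem powCongr_add {R : Type*} [CommRing R] {p : ℕ} (hp : p.Prime) {x y : R}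
    (hx : ∃ a : ℤ, (p : R) ∣ x ^ p - (a : R)) (hy : ∃ b : ℤ, (p : R) ∣ y ^ p - (b : R)) :
    ∃ c : ℤ, (p : R) ∣ (x + y) ^ p - (c : R) := by
  obtain ⟨a, u, hu⟩ := hx
  obtain ⟨b, v, hv⟩ := hy
  obtain ⟨r, hr⟩ := exists_add_pow_prime_eq hp x y
  refine ⟨a + b, u + v + x * y * r, ?_⟩
  rw [hr, Int.cast_add]
  linear_combination hu + hv

/-- The set of `α` with `α ^ p` congruent to a rational integer mod `p` is closed under
multiplication (in any commutative ring). -/
private theorem powCongr_mul {R : Type*} [CommRing R] {p : ℕ} {x y : R}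
    (hx : ∃ a : ℤ, (p : R) ∣ x ^ p - (a : R)) (hy : ∃ b : ℤ, (p : R) ∣ y ^ p - (b : R)) :
    ∃ c : ℤ, (p : R) ∣ (x * y) ^ p - (c : R) := by
  obtain ⟨a, u, hu⟩ := hx
  obtain ⟨b, v, hv⟩ := hy
  refine ⟨a * b, x ^ p * v + (b : R) * u, ?_⟩
  rw [Int.cast_mul, mul_pow]
  linear_combination x ^ p * hv + (b : R) * hu

/-- For every `α ∈ 𝓞 K` there is `a ∈ ℤ` with `α ^ p ≡ a (mod p)`. -/
theorem exists_int_sub_pow_prime_dvd (α : 𝓞 K) : ∃ a : ℤ, (p : 𝓞 K) ∣ α ^ p - (a : 𝓞 K) := by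
  have : NeZero p := ⟨p_ne_zero p⟩
  have hp : p.Prime := Fact.out
  have hζ := zeta_spec' p K
  have htop : Algebra.adjoin ℤ ({hζ.integralPowerBasis.gen} : Set (𝓞 K)) = ⊤ :=
    hζ.integralPowerBasis.adjoin_gen_eq_top
  have hα : α ∈ Algebra.adjoin ℤ ({hζ.integralPowerBasis.gen} : Set (𝓞 K)) := by
    rw [htop]; exact Algebra.mem_top
  refine Algebra.adjoin_induction (p := fun x _ => ∃ a : ℤ, (p : 𝓞 K) ∣ x ^ p - (a : 𝓞 K))
    ?_ ?_ ?_ ?_ hα
  · intro x hx
    rw [Set.mem_singleton_iff] at hx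
    have hx' : x = ζ p K := by
      rw [hx, IsPrimitiveRoot.integralPowerBasis_gen]; rfl
    refine ⟨1, ?_⟩
    rw [hx', ζ_pow_p, Int.cast_one, sub_self]
    exact dvd_zero _
  · intro n
    refine ⟨n ^ p, ?_⟩
    rw [Int.cast_pow, eq_intCast, sub_self]
    exact dvd_zero _
  · intro x y _ _ hx hy
    exact powCongr_add hp hx hy
  · intro x y _ _ hx hy
    exact powCongr_mul hx hy

end Fermat.Agent.Kummer.CaseI
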