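import Fermat.Agent.Kummer.CaseI.Basic

/-!
# Kummer, Case I / Torsion: the roots of unity of the `p`-th cyclotomic field are `± ζ ^ j`
-/

set_option autoImplicit false

noncomputable section

namespace Fermat.Agent.Kummer.CaseI

open NumberField

variable {p : ℕ} [Fact p.Prime] (K : Type) [Field K] [NumberField K]
  [IsCyclotomicExtension {p} ℚ K]

/-- Every torsion unit of `𝓞 K` is `ζ ^ j` or `-ζ ^ j`. -/
theorem torsion_eq (hp3 : 3 ≤ p) (η : (𝓞 K)ˣ) (hη : η ∈ NumberField.Units.torsion K) :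
    ∃ j : ℕ, (η : 𝓞 K) = ζ p K ^ j ∨ (η : 𝓞 K) = -ζ p K ^ j := by
  have hpp : p.Prime := Fact.out
  have : NeZero p := ⟨p_ne_zero p⟩
  have hodd : Odd p := hpp.odd_of_ne_two (by omega)
  have hord : NumberField.Units.torsionOrder K = 2 * p := by
    rw [IsCyclotomicExtension.Rat.torsionOrder_eq (n := p) (K := K),
      if_neg (Nat.not_even_iff_odd.mpr hodd)]
  -- `η ^ (2 * p) = 1`
  have h1 : η ^ (2 * p) = 1 := by
    rw [← NumberField.Units.rootsOfUnity_eq_torsion, hord] at hη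
    exact (mem_rootsOfUnity _ _).mp hη
  have h2 : ((η : 𝓞 K) ^ p) ^ 2 = 1 := by
    have h := congrArg (fun u : (𝓞 K)ˣ => (u : 𝓞 K)) h1
    simp only [Units.val_pow_eq_pow_val, Units.val_one] at h
    rw [← pow_mul, mul_comm p 2]
    exact h
  rcases sq_eq_one_iff.mp h2 with h | h
  · obtain ⟨j, -, hj⟩ := (ζ_spec p K).eq_pow_of_pow_eq_one h
    exact ⟨j, Or.inl hj.symm⟩
  · have h' : (-(η : 𝓞 K)) ^ p = 1 := by
      rw [hodd.neg_pow, h, neg_neg]
    obtain ⟨j, -, hj⟩ := (ζ_spec p K).eq_pow_of_pow_eq_one h'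
    exact ⟨j, Or.inr (by rw [hj, neg_neg])⟩

end Fermat.Agent.Kummer.CaseI
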